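import Fermat.Agent.S17.H871.BC

/-!
# S17 / G-DIV, pieces ZRAT and CUSPRAT (and the standing facts about `F_L`)

For every algebraically closed field `L` of characteristic zero:
* `transcendental_tL`, `finiteDimensional_tL`, `ff1_FL` : `t = j` is transcendental over `L`,
  `F_L` is finite over `L(t)`, and `F_L` satisfies the standing hypotheses `FF1` of `Lib/RR`;
* `stmtZRAT : StmtZRAT N L` : the zeros and poles of a function with coefficients in a subfield
  `K₁`, algebraically closed in `L`, are rational over `K₁`;
* `stmtCUSPRAT : StmtCUSPRAT N L`.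

Method for ZRAT: `F_L` is the constant field extension of `F_{K₁}` (`S29/H871`), a function with
coefficients in `K₁` comes from `F_{K₁}` (`S29/H32`), a place of `F_L` which is nontrivial on
`F_{K₁}` is a base change (`exists_bcPlace_eq`), and base-changed places are rational.

(helper871)
-/

set_option autoImplicit false
set_option linter.unusedSectionVars false

noncomputable section

namespace Fermat.Agent.S17.H871

open AlgebraicCurve ModularCurve IntermediateField
open Fermat.Agent.Lib.RR Fermat.Agent.S17.H680 Fermat.Agent.S17.GDiv Fermat.Agent.S24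

section Tower

variable (k L : Type) [Field k] [Field L] [Algebra ℚ k] [Algebra ℚ L] [Algebra k L]

/-- The tower `ℚ ⊆ k ⊆ L` is automatically compatible. -/
theorem isScalarTower_rat_gen : IsScalarTower ℚ k L :=
  IsScalarTower.of_algebraMap_eq fun q => by
    have h : algebraMap ℚ L = (algebraMap k L).comp (algebraMap ℚ k) := Subsingleton.elim _ _
    exact congrFun (congrArg DFunLike.coe h) q

/-- A `ℚ`-algebra which is a field has characteristic zero. -/
theorem charZero_gen (L : Type) [Field L] [Algebra ℚ L] : CharZero L := algebraRat.charZero L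

end Tower

section Generic

variable (N : ℕ) [NeZero N] (k L : Type) [Field k] [Field L] [Algebra ℚ k] [Algebra ℚ L]
  [Algebra k L] [IsAlgClosed k] [IsAlgClosed L]

attribute [local instance] Fermat.Agent.S29.H871.lbcAlgebra Fermat.Agent.S29.H871.lbcAlgebraBase
  Fermat.Agent.S29.H871.lbc_isScalarTower₁ Fermat.Agent.S29.H871.lbc_isScalarTower₂
  Fermat.Agent.S29.H871.isConstExt_lbc isScalarTower_rat_gen charZero_gen

theorem algebraMap_bcQ_gen (u : modularFunctionFieldFull N) :
    algebraMap (FL N k) (FL N L) (bcQ N k u) = bcQ N L u := by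
  apply Subtype.ext
  show coeffMap (algebraMap k L) (coeffEmb k (u : LaurentSeries ℚ))
    = coeffEmb L (u : LaurentSeries ℚ)
  exact Fermat.Agent.S29.H32.coeffMap_coeffEmb_up _

theorem algebraMap_tL_gen : algebraMap (FL N k) (FL N L) (tL N k) = tL N L :=
  algebraMap_bcQ_gen N k L (jQ N)

theorem algebraMap_const_gen (c : k) :
    algebraMap (FL N k) (FL N L) (algebraMap k (FL N k) c)
      = algebraMap L (FL N L) (algebraMap k L c) := by
  rw [← IsScalarTower.algebraMap_apply k (FL N k) (FL N L),
    IsScalarTower.algebraMap_apply k L (FL N L)]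

open Fermat.Agent.S29.H871 in
/-- Base-changed places are rational over the image of `k`. -/
theorem isRationalOver_bcPlace_gen [FiniteDimensional k⟮tL N k⟯ (FL N k)]
    (ht : Transcendental k (tL N k)) (v : Place k (FL N k)) :
    IsRationalOver (algebraMap k L).fieldRange (bcPlace L (FL N L) ht v) := by
  intro u c hc
  set P := bcPlace L (FL N L) ht v with hP
  have hc' : InMax P (bcQ N L u - algebraMap L (FL N L) c) := hc
  have h1 : bcQ N L u ∈ P.toValuationSubring := by
    have h2 : bcQ N L u - algebraMap L (FL N L) c ∈ P.toValuationSubring := by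
      rcases hc' with h | h
      · rw [h]; exact zero_mem _
      · exact FF.mem_of_ord_nonneg P h.le
    have h3 := add_mem h2 (P.algebraMap_mem' c)
    rwa [sub_add_cancel] at h3
  have h4 : bcQ N k u ∈ v.toValuationSubring := by
    apply FF.mem_of_ord_nonneg
    rw [← ord_bcPlace (K' := L) (F' := FL N L) ht v, algebraMap_bcQ_gen]
    exact FF.ord_nonneg_of_mem P h1
  obtain ⟨a, ha⟩ := FF.exists_const_sub_mem_nonunits v ht h4
  have h5 : InMax P (bcQ N L u - algebraMap L (FL N L) (algebraMap k L a)) := by
    rw [← algebraMap_bcQ_gen N k L, ← algebraMap_const_gen, ← map_sub]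
    by_cases h0 : bcQ N k u - algebraMap k (FL N k) a = 0
    · left; rw [h0, map_zero]
    · right
      rw [hP, ord_bcPlace]
      exact (FF.ord_pos_iff_mem_nonunits v h0).mpr ha
  have h6 : InMax P (algebraMap L (FL N L) (algebraMap k L a - c)) := by
    have := hc'.sub h5
    rwa [sub_sub_sub_cancel_left, ← map_sub] at this
  have h7 := h6.const_eq_zero
  exact ⟨a, sub_eq_zero.mp h7⟩

open Fermat.Agent.S29.H871 in
/-- The zeros and poles of a function coming from `F_k` are rational over the image of `k`. -/
theorem isRationalOver_of_ord_ne_zero [FiniteDimensional k⟮tL N k⟯ (FL N k)]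
    (ht : Transcendental k (tL N k)) (f₀ : FL N k) {P : Place L (FL N L)}
    (hP : P.ord (algebraMap (FL N k) (FL N L) f₀) ≠ 0) :
    IsRationalOver (algebraMap k L).fieldRange P := by
  obtain ⟨v, rfl⟩ := exists_bcPlace_eq ht P ⟨f₀, hP⟩
  exact isRationalOver_bcPlace_gen N k L ht v

end Generic

section Standing

variable (N : ℕ) [NeZero N] (L : Type) [Field L] [Algebra ℚ L] [IsAlgClosed L]

attribute [local instance] Fermat.Agent.S29.H871.lbcAlgebra Fermat.Agent.S29.H871.lbcAlgebraBase
  Fermat.Agent.S29.H871.lbc_isScalarTower₁ Fermat.Agent.S29.H871.lbc_isScalarTower₂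
  Fermat.Agent.S29.H871.isConstExt_lbc isScalarTower_rat_gen charZero_gen

theorem isAlgebraic_Qb : @Algebra.IsAlgebraic ℚ Qb _ _ (inferInstance : Algebra ℚ Qb) := by
  have h : (inferInstance : Algebra ℚ Qb) =
      (AlgebraicClosure.instAlgebra ℚ : Algebra ℚ (AlgebraicClosure ℚ)) := Subsingleton.elim _ _
  rw [h]
  infer_instance

/-- An embedding `ℚ̄ → L`. -/
@[reducible] def algebraQb : Algebra Qb L :=
  have : CharZero L := charZero_gen L
  have := isAlgebraic_Qb
  ((IsAlgClosed.lift : Qb →ₐ[ℚ] L) : Qb →+* L).toAlgebra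

open Fermat.Agent.S29.H871 in
/-- `t = j` is transcendental over `L`. -/
theorem transcendental_tL : Transcendental L (tL N L) := by
  let _ := algebraQb L
  have hfd : FiniteDimensional Qb⟮jF N⟯ (FF N) := Fermat.Agent.Lib.RR.H804.finiteDimensional_jF N
  have h := transcendental_algebraMap (K' := L) (F' := FL N L)
    (Fermat.Agent.Lib.RR.H804.transcendental_jF N)
  rwa [algebraMap_jF] at h

open Fermat.Agent.S29.H871 in
/-- `F_L` is finite over `L(t)`. -/
theorem finiteDimensional_tL : FiniteDimensional L⟮tL N L⟯ (FL N L) := by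
  let _ := algebraQb L
  have hfd : FiniteDimensional Qb⟮jF N⟯ (FF N) := Fermat.Agent.Lib.RR.H804.finiteDimensional_jF N
  have h := finiteDimensional_adjoin_algebraMap (K := Qb) (K' := L) (F' := FL N L) (jF N)
  rwa [algebraMap_jF] at h

/-- `F_L` satisfies the standing hypotheses of `Lib/RR`, for every algebraically closed field `L`
of characteristic zero. -/
theorem ff1_FL : FF1 L (FL N L) :=
  have := finiteDimensional_tL N L
  Fermat.Agent.Lib.RR.H804.ff1 (transcendental_tL N L)

end Standing

section ZRat

variable (N : ℕ) [NeZero N] (L : Type) [Field L] [Algebra ℚ L] [IsAlgClosed L]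

/-- A subfield which is algebraically closed in an algebraically closed field is algebraically
closed. -/
theorem isAlgClosed_of_algClosedIn {K₁ : Subfield L} (hK₁ : AlgClosedIn K₁) : IsAlgClosed K₁ := by
  apply IsAlgClosed.of_exists_root
  intro p hp hirr
  have hdeg : (p.map (algebraMap K₁ L)).degree ≠ 0 := by
    rw [Polynomial.degree_map]
    exact (Polynomial.degree_pos_of_irreducible hirr).ne'
  obtain ⟨x, hx⟩ := IsAlgClosed.exists_root (p.map (algebraMap K₁ L)) hdeg
  have hx' : Polynomial.aeval x p = 0 := by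
    rwa [Polynomial.IsRoot, Polynomial.eval_map_algebraMap] at hx
  have hxK : x ∈ K₁ := hK₁ x ⟨p, hirr.ne_zero, hx'⟩
  refine ⟨⟨x, hxK⟩, ?_⟩
  have h2 : Polynomial.aeval ((algebraMap K₁ L) ⟨x, hxK⟩) p = 0 := hx'
  rw [Polynomial.aeval_algebraMap_apply] at h2
  have h3 : Polynomial.aeval (⟨x, hxK⟩ : K₁) p = 0 :=
    (algebraMap K₁ L).injective (by rw [h2, map_zero])
  rwa [Polynomial.coe_aeval_eq_eval] at h3

/-- **G-DIV, piece ZRAT.**  The zeros and poles of a function with coefficients in `K₁` are
rational over `K₁`. -/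
theorem stmtZRAT : StmtZRAT N L := by
  intro K₁ hK₁ f hf P hP
  have hac : IsAlgClosed K₁ := isAlgClosed_of_algClosedIn L hK₁
  have hcz : CharZero L := charZero_gen L
  let _ : Algebra ℚ K₁ := DivisionRing.toRatAlgebra
  have hst : IsScalarTower ℚ K₁ L := isScalarTower_rat_gen K₁ L
  have hfd := finiteDimensional_tL N K₁
  have ht := transcendental_tL N K₁
  have hcoeff : ∀ n, (f : LaurentSeries L).coeff n ∈ Set.range (algebraMap K₁ L) :=
    fun n => ⟨⟨_, hf n⟩, rfl⟩
  obtain ⟨y, hy, hyf⟩ :=
    Fermat.Agent.S29.H32.exists_of_coeff_mem_range (modularFunctionFieldFull N) f.2 hcoeff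
  have hfy : @algebraMap (FL N K₁) (FL N L) _ _
      (Fermat.Agent.S29.H871.lbcAlgebra (modularFunctionFieldFull N)) ⟨y, hy⟩ = f :=
    Subtype.ext hyf
  have hrange : (algebraMap K₁ L).fieldRange = K₁ := by
    ext x
    constructor
    · rintro ⟨a, rfl⟩; exact a.2
    · intro hx; exact ⟨⟨x, hx⟩, rfl⟩
  have key := isRationalOver_of_ord_ne_zero N K₁ L ht ⟨y, hy⟩ (P := P) (by rw [hfy]; exact hP)
  rwa [hrange] at key

end ZRat

section CuspRat

variable (N : ℕ) [NeZero N] (L : Type) [Field L] [Algebra ℚ L]

/-- **G-DIV, piece CUSPRAT.**  The cusp `∞` is rational over every subfield: the value of a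
function with rational `q`-expansion at `∞` is its constant term. -/
theorem stmtCUSPRAT : StmtCUSPRAT N L := by
  intro K₁ u c hc
  set f : FL N L := bcQ N L u - algebraMap L (FL N L) c with hf
  have hcoeff : (f : LaurentSeries L).coeff 0 = 0 := by
    rcases hc with h | h
    · have h' : f = 0 := h
      rw [h']; rfl
    · have h' : 0 < (cuspL N L).ord f := h
      have h0 : f ≠ 0 := by
        intro h0; rw [h0, (cuspL N L).ord_zero] at h'; exact lt_irrefl _ h'
      have h1 : ¬ f⁻¹ ∈ (cuspL N L).toValuationSubring := by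
        intro hmem
        have := FF.ord_nonneg_of_mem _ hmem
        rw [(cuspL N L).ord_inv] at this
        omega
      have h2 : ¬ 0 ≤ ((f⁻¹ : FL N L) : LaurentSeries L).order := fun h2 =>
        h1 ((mem_cuspInf (modularFunctionFieldFull N) (exists_order_neg N L) f⁻¹).mpr h2)
      have hf0 : (f : LaurentSeries L) ≠ 0 := fun h => h0 (Subtype.ext h)
      have h3 : (f : LaurentSeries L).order + ((f⁻¹ : FL N L) : LaurentSeries L).order = 0 := by
        have hinv0 : ((f⁻¹ : FL N L) : LaurentSeries L) ≠ 0 := fun h =>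
          inv_ne_zero h0 (Subtype.ext h)
        rw [← HahnSeries.order_mul hf0 hinv0]
        have : (f : LaurentSeries L) * ((f⁻¹ : FL N L) : LaurentSeries L) = 1 := by
          have := congrArg (Subtype.val) (mul_inv_cancel₀ h0)
          simpa using this
        rw [this, HahnSeries.order_one]
      exact HahnSeries.coeff_eq_zero_of_lt_order (by omega)
  have hval : (f : LaurentSeries L).coeff 0 = algebraMap ℚ L ((u : LaurentSeries ℚ).coeff 0) - c := by
    show (coeffEmb L (u : LaurentSeries ℚ) - algebraMap L (LaurentSeries L) c).coeff 0 = _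
    rw [HahnSeries.coeff_sub, coeffEmb_coeff, algebraMap_laurentSeries_eq_single,
      HahnSeries.coeff_single_same]
  rw [hval, sub_eq_zero] at hcoeff
  rw [← hcoeff, eq_ratCast]
  exact SubfieldClass.ratCast_mem K₁ _

end CuspRat

end Fermat.Agent.S17.H871
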