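import Fermat.Agent.S17.GDiv.Defs
import Fermat.Agent.S29.H871.Concrete

/-!
# S17 / G-DIV, piece BC: base change of classes `J₀(N)(ℚ̄) → Pic⁰(F_L)`

`stmtBC : StmtBC N L` for every algebraically closed field `L ⊇ ℚ̄`: the homomorphism
`β = bcPic0` (constant field extension of divisor classes, `S29/H871`) is injective, its values
are represented by `ℚ̄`-rational divisors, and every class with `ℚ̄`-rational minimal
representative lies in its image.

Adapter over the library `Fermat.Agent.S29.H871` (abstract constant field extensions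
`IsConstExt` / `IsDescentAction`, instantiated for Laurent base changes in `Concrete.lean`):
* `bcPlace`, `ord_bcPlace` : base change of places;
* `exists_bcPlace_eq` : a place of `F_L` which is nontrivial on `F_ℚ̄` is a base change;
* `bcPic0_injective`.

(helper871)
-/

set_option autoImplicit false
set_option linter.unusedSectionVars false

noncomputable section

namespace Fermat.Agent.S17.H871

open AlgebraicCurve ModularCurve IntermediateField
open Fermat.Agent.Lib.RR Fermat.Agent.S17.H680 Fermat.Agent.S17.GDiv Fermat.Agent.S24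

section

variable (N : ℕ) [NeZero N] (L : Type) [Field L] [Algebra ℚ L] [Algebra Qb L]

/-- The tower `ℚ ⊆ ℚ̄ ⊆ L` is automatically compatible. -/
theorem isScalarTower_rat : IsScalarTower ℚ Qb L :=
  IsScalarTower.of_algebraMap_eq fun q => by
    have h : algebraMap ℚ L = (algebraMap Qb L).comp (algebraMap ℚ Qb) := Subsingleton.elim _ _
    exact congrFun (congrArg DFunLike.coe h) q

/-- `L` has characteristic zero. -/
theorem charZero_of_algebraRat : CharZero L := algebraRat.charZero L

end

section Main

variable (N : ℕ) [NeZero N] (L : Type) [Field L] [Algebra ℚ L] [Algebra Qb L] [IsAlgClosed L]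

attribute [local instance] Fermat.Agent.S29.H871.lbcAlgebra Fermat.Agent.S29.H871.lbcAlgebraBase
  Fermat.Agent.S29.H871.lbc_isScalarTower₁ Fermat.Agent.S29.H871.lbc_isScalarTower₂
  Fermat.Agent.S29.H871.isConstExt_lbc isScalarTower_rat charZero_of_algebraRat

/-- Base change of the function with rational `q`-expansion `u` to `ℚ̄`. -/
def bcQb (u : modularFunctionFieldFull N) : FF N :=
  ⟨coeffEmb Qb (u : LaurentSeries ℚ), coeffEmb_mem_laurentBaseChange Qb u.2⟩

theorem algebraMap_bcQb (u : modularFunctionFieldFull N) :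
    algebraMap (FF N) (FL N L) (bcQb N u) = bcQ N L u := by
  apply Subtype.ext
  show coeffMap (algebraMap Qb L) (coeffEmb Qb (u : LaurentSeries ℚ))
    = coeffEmb L (u : LaurentSeries ℚ)
  exact Fermat.Agent.S29.H32.coeffMap_coeffEmb_up _

theorem algebraMap_jF : algebraMap (FF N) (FL N L) (jF N) = tL N L :=
  algebraMap_bcQb N L (jQ N)

theorem algebraMap_const (c : Qb) :
    algebraMap (FF N) (FL N L) (algebraMap Qb (FF N) c)
      = algebraMap L (FL N L) (algebraMap Qb L c) := by
  rw [← IsScalarTower.algebraMap_apply Qb (FF N) (FL N L),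
    IsScalarTower.algebraMap_apply Qb L (FL N L)]


open Fermat.Agent.S29.H871 in
/-- Base-changed places are rational over `ℚ̄`. -/
theorem isRationalOver_bcPlace [FiniteDimensional Qb⟮jF N⟯ (FF N)]
    (ht : Transcendental Qb (jF N)) (v : Place Qb (FF N)) :
    IsRationalOver (kL L) (bcPlace L (FL N L) ht v) := by
  intro u c hc
  set P := bcPlace L (FL N L) ht v with hP
  have hc' : InMax P (bcQ N L u - algebraMap L (FL N L) c) := hc
  -- `bcQ u` is integral at `P`
  have h1 : bcQ N L u ∈ P.toValuationSubring := by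
    have h2 : bcQ N L u - algebraMap L (FL N L) c ∈ P.toValuationSubring := by
      rcases hc' with h | h
      · rw [h]; exact zero_mem _
      · exact FF.mem_of_ord_nonneg P h.le
    have h3 := add_mem h2 (P.algebraMap_mem' c)
    rwa [sub_add_cancel] at h3
  -- hence so is its model over `ℚ̄`
  have h4 : bcQb N u ∈ v.toValuationSubring := by
    apply FF.mem_of_ord_nonneg
    rw [← ord_bcPlace (K' := L) (F' := FL N L) ht v, algebraMap_bcQb]
    exact FF.ord_nonneg_of_mem P h1
  obtain ⟨a, ha⟩ := FF.exists_const_sub_mem_nonunits v ht h4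
  have h5 : InMax P (bcQ N L u - algebraMap L (FL N L) (algebraMap Qb L a)) := by
    rw [← algebraMap_bcQb, ← algebraMap_const, ← map_sub]
    by_cases h0 : bcQb N u - algebraMap Qb (FF N) a = 0
    · left; rw [h0, map_zero]
    · right
      rw [hP, ord_bcPlace]
      exact (FF.ord_pos_iff_mem_nonunits v h0).mpr ha
  have h6 : InMax P (algebraMap L (FL N L) (algebraMap Qb L a - c)) := by
    have := hc'.sub h5
    rwa [sub_sub_sub_cancel_left, ← map_sub] at this
  have h7 := h6.const_eq_zero
  exact ⟨a, sub_eq_zero.mp h7⟩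

open Fermat.Agent.S29.H871 in
/-- A place of `F_L` that is rational over `ℚ̄` is a base change. -/
theorem exists_bcPlace_eq_of_isRationalOver [FiniteDimensional Qb⟮jF N⟯ (FF N)]
    (ht : Transcendental Qb (jF N)) {P : Place L (FL N L)} (hP : IsRationalOver (kL L) P) :
    ∃ v : Place Qb (FF N), bcPlace L (FL N L) ht v = P := by
  apply exists_bcPlace_eq ht P
  by_cases hneg : P.ord (tL N L) < 0
  · refine ⟨jF N, ?_⟩
    show P.ord (algebraMap (FF N) (FL N L) (jF N)) ≠ 0
    rw [algebraMap_jF]
    omega
  · have hmem : tL N L ∈ P.toValuationSubring := FF.mem_of_ord_nonneg P (not_lt.mp hneg)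
    have ht' := transcendental_algebraMap (K' := L) (F' := FL N L) ht
    have hfd := finiteDimensional_adjoin_algebraMap (K := Qb) (K' := L) (F' := FL N L) (jF N)
    rw [algebraMap_jF] at ht' hfd
    obtain ⟨c, hc⟩ := FF.exists_const_sub_mem_nonunits P ht' hmem
    have hval : HasValue P (bcQ N L (jQ N)) c := inMax_of_mem_nonunits hc
    obtain ⟨c₀, rfl⟩ := hP (jQ N) c hval
    refine ⟨jF N - algebraMap Qb (FF N) c₀, ?_⟩
    have hne : jF N - algebraMap Qb (FF N) c₀ ≠ 0 := by
      intro h0
      apply ht
      rw [sub_eq_zero.mp h0]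
      exact isAlgebraic_algebraMap c₀
    have himg : algebraMap (FF N) (FL N L) (jF N - algebraMap Qb (FF N) c₀)
        = tL N L - algebraMap L (FL N L) (algebraMap Qb L c₀) := by
      rw [map_sub, algebraMap_jF, algebraMap_const]
    have hne' : tL N L - algebraMap L (FL N L) (algebraMap Qb L c₀) ≠ 0 := by
      rw [← himg]
      exact fun h => hne ((algebraMap (FF N) (FL N L)).injective (by rw [h, map_zero]))
    show P.ord (algebraMap (FF N) (FL N L) (jF N - algebraMap Qb (FF N) c₀)) ≠ 0
    rw [himg]
    have := (FF.ord_pos_iff_mem_nonunits P hne').mpr hc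
    omega

open Fermat.Agent.S29.H871 in
/-- The cusp `∞` of `F_L` is a base change. -/
theorem exists_bcPlace_eq_cuspL [FiniteDimensional Qb⟮jF N⟯ (FF N)]
    (ht : Transcendental Qb (jF N)) :
    ∃ v : Place Qb (FF N), bcPlace L (FL N L) ht v = cuspL N L := by
  apply exists_bcPlace_eq ht (cuspL N L)
  refine ⟨jF N, ?_⟩
  show (cuspL N L).ord (algebraMap (FF N) (FL N L) (jF N)) ≠ 0
  rw [algebraMap_jF]
  intro h0
  have hmem : tL N L ∈ (cuspL N L).toValuationSubring :=
    FF.mem_of_ord_nonneg _ (le_of_eq h0.symm)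
  have h1 : 0 ≤ ((tL N L : FL N L) : LaurentSeries L).order :=
    (mem_cuspInf (modularFunctionFieldFull N) (exists_order_neg N L) (tL N L)).mp hmem
  have h2 : (coeffEmb L jq).order ≤ -1 :=
    HahnSeries.order_le_of_coeff_ne_zero (by
      rw [coeffEmb_coeff, coeff_jq_neg_one, map_one]; exact one_ne_zero)
  have h3 : ((tL N L : FL N L) : LaurentSeries L) = coeffEmb L jq := rfl
  rw [h3] at h1
  omega

open Fermat.Agent.S29.H871 in
/-- **G-DIV, piece BC.**  Base change of divisor classes `J₀(N)(ℚ̄) → Pic⁰(F_L)` is injective,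
its values are represented by `ℚ̄`-rational divisors, and every class with `ℚ̄`-rational minimal
representative is a base change. -/
theorem stmtBC [FF1 L (FL N L)] : StmtBC N L := by
  classical
  have hfd : FiniteDimensional Qb⟮jF N⟯ (FF N) := Fermat.Agent.Lib.RR.H804.finiteDimensional_jF N
  have ht : Transcendental Qb (jF N) := Fermat.Agent.Lib.RR.H804.transcendental_jF N
  refine ⟨bcPic0 L (FL N L) ht,
    bcPic0_injective (isDescentAction_lbc (k := Qb) (Ω := L) (modularFunctionFieldFull N)) ht,
    ?_, ?_⟩
  · intro x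
    obtain ⟨D, rfl⟩ := Pic0.mk_surjective x
    refine ⟨bcDegZero L (FL N L) ht D, ?_, bcPic0_mk ht D⟩
    intro P hP
    rw [coe_bcDegZero] at hP
    have hP' : P ∈ ((D : Divisor Qb (FF N)).support).image (bcPlace L (FL N L) ht) :=
      Finsupp.mapDomain_support hP
    obtain ⟨v, -, rfl⟩ := Finset.mem_image.mp hP'
    exact isRationalOver_bcPlace N L ht v
  · intro y hy
    have hsupp : ∀ w ∈ (minDiv (cuspL N L) y : Divisor L (FL N L)).support,
        w ∈ Set.range (bcPlace L (FL N L) ht) := by
      intro w hw
      by_cases hwc : w = cuspL N L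
      · rw [hwc]; exact exists_bcPlace_eq_cuspL N L ht
      · apply exists_bcPlace_eq_of_isRationalOver N L ht
        apply hy
        rw [Finsupp.mem_support_iff] at hw ⊢
        intro h0
        apply hw
        rw [coe_minDiv, Finsupp.sub_apply, h0, Finsupp.smul_apply, prim,
          Finsupp.single_apply, if_neg (Ne.symm hwc)]
        simp
    obtain ⟨E₀, hE₀⟩ := exists_bcDiv_eq ht _ hsupp
    have hdeg : E₀ ∈ Divisor.degZero (K := Qb) (F := FF N) := by
      rw [Divisor.mem_degZero, ← degree_bcDiv (K' := L) (F' := FL N L) ht, hE₀]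
      exact (minDiv (cuspL N L) y).2
    refine ⟨Pic0.mk ⟨E₀, hdeg⟩, ?_⟩
    rw [bcPic0_mk]
    conv_rhs => rw [← mk_minDiv (cuspL N L) y]
    congr 1
    exact Subtype.ext hE₀

end Main

end Fermat.Agent.S17.H871
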