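import Fermat.Agent.S17.H871.ZRat

/-!
# S17 / G-DIV, piece RIG (rigidity for classes) from CORE

`stmtRIG : StmtCORE N L → StmtRIG N L` (`ZRAT` and `CUSPRAT` are unconditional,
`Fermat.Agent.S17.H871.stmtZRAT`, `stmtCUSPRAT`).

Proof.  `n y = [B]`, `y = [E - m ∞]` with `E = minRep y`, `ℓ(E) = 1`: there is `f ≠ 0` with
`ord_P f = n (E - m ∞)(P) - B(P)` for all `P`.  A place `P` which is not `K₁`-rational is neither
`∞` (CUSPRAT) nor in the support of `B`, so `ord_P f = n E(P)`.  Hence the hypothesis of CORE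
holds, `c f` has coefficients in `K₁`, and by ZRAT all zeros and poles of `f` are `K₁`-rational;
so no `P ∈ supp E` can fail to be `K₁`-rational.

(helper871)
-/

set_option autoImplicit false
set_option linter.unusedSectionVars false

noncomputable section

namespace Fermat.Agent.S17.H871

open AlgebraicCurve ModularCurve IntermediateField
open Fermat.Agent.Lib.RR Fermat.Agent.S17.H680 Fermat.Agent.S17.GDiv Fermat.Agent.S24

variable (N : ℕ) [NeZero N] (L : Type) [Field L] [Algebra ℚ L] [IsAlgClosed L] [FF1 L (FL N L)]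

/-- **G-DIV, piece RIG** (from CORE). -/
theorem stmtRIG (hCORE : StmtCORE N L) : StmtRIG N L := by
  classical
  intro K₁ hK₁ y n hn B hB hnyB
  set E := minRep (cuspL N L) y with hE
  set m := minDeg (cuspL N L) y with hm
  have hy : Pic0.mk (minDiv (cuspL N L) y) = y := mk_minDiv _ y
  have h1 : Pic0.mk B = Pic0.mk (n • minDiv (cuspL N L) y) := by
    rw [← hnyB]
    conv_lhs => rw [← hy]
    rfl
  rw [mk_eq_mk_iff, Divisor.mem_principal] at h1
  obtain ⟨f, hf0, hf⟩ := h1
  -- the order of `f` at a place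
  have hord : ∀ P : Place L (FL N L),
      P.ord f = n * (E P - m * prim (cuspL N L) P) - (B : Divisor L (FL N L)) P := by
    intro P
    rw [← hf P]
    simp only [AddSubgroup.coe_nsmul, coe_minDiv, Finsupp.sub_apply, Finsupp.smul_apply,
      nsmul_eq_mul]
    push_cast
    ring
  -- at a non-rational place
  have hnr : ∀ P : Place L (FL N L), ¬ IsRationalOver K₁ P → P.ord f = n * E P := by
    intro P hP
    have hPc : P ≠ cuspL N L := fun h => hP (h ▸ stmtCUSPRAT N L K₁)
    have hPB : (B : Divisor L (FL N L)) P = 0 := by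
      by_contra h
      exact hP (hB P (Finsupp.mem_support_iff.mpr h))
    rw [hord, hPB, prim, Finsupp.single_apply, if_neg (Ne.symm hPc)]
    ring
  have hEnn : 0 ≤ E := minRep_nonneg _ y
  obtain ⟨c, hc0, hc⟩ := hCORE K₁ hK₁ f hf0 E hEnn (ell_minRep _ y) (by
    intro P hP hPf
    rw [hnr P hP] at hPf
    have h2 : E P ≠ 0 := fun h => hPf (by rw [h, mul_zero])
    exact lt_of_le_of_ne (hEnn P) (Ne.symm h2))
  intro P hPE
  by_contra hP
  have hEP : E P ≠ 0 := Finsupp.mem_support_iff.mp hPE
  have hPf : P.ord f ≠ 0 := by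
    rw [hnr P hP]
    exact mul_ne_zero (by exact_mod_cast hn) hEP
  have hcf : P.ord (c • f) ≠ 0 := by
    rw [Algebra.smul_def, P.ord_mul (by simpa using hc0) hf0, FF.ord_algebraMap, zero_add]
    exact hPf
  exact hP (stmtZRAT N L K₁ hK₁ (c • f) hc P hcf)

end Fermat.Agent.S17.H871
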